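/-
GATE-Z / LOC-p, building block A4LOC of (b)=BOB (helper38), file 2: **the chart step, LOCAL form**.

Twin of `GB/A/A4/ChartStep.dvd_ord_of_ufd` (helper84): the global Kummer hypothesis
`mapK0Bar u₀ ∈ pDivUnits ℚ̄ F_N m` is replaced by `m ∣ ord_P (mapK0Bar u₀)` at the places `P` of
`F_N / ℚ̄` whose valuation ring contains the chart ring `Bj` (the places "in the chart").
-/
import Fermat.Agent.GB.A.A4.ChartStep
import Fermat.Agent.GZ.LocP.A4Loc.Horiz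

set_option autoImplicit false
set_option linter.unusedSectionVars false

noncomputable section

namespace Fermat.Agent.GZ.LocP.A4Loc

open ModularCurve IsLocalRing AlgebraicCurve
open Fermat.Agent.GL.KrullHeightOne Fermat.Agent.GL.Frame.HeightOne Fermat.Agent.GL.Frame.Kummer
open Fermat.Agent.GL.Val.GaussK0 Fermat.Agent.GL.Val.SecondK0 Fermat.Agent.GL.Val.L1eLower
open Fermat.Agent.GL.Local.InertiaField
open Fermat.Agent.GJ.KumGroup
open Fermat.Agent.GL.Frame.HorizDiv Fermat.Agent.GL.Frame.HorizHord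
open Fermat.Agent.GK.AL Fermat.Agent.GL.AL
open Fermat.Agent.Common_helper32
open Fermat.Agent.S24_helper6
open Fermat.Agent.GB.A4.FrameTwo Fermat.Agent.GB.A4.LocalKummer Fermat.Agent.GB.A4.ChartStep

attribute [local instance] Fermat.Agent.GL.Frame.InstK0.algSubringFullC

section Step

variable (A : ValuationSubring Qb) (N : ℕ) [NeZero N] {q : ℕ} (h : ExactDvd q N)
  (hA : A.LiesOverPrime q)

local notation "F0" => modularFunctionFieldFullC (K0 A) N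

variable {A N h}

include hA in
/-- **the chart step, local form** -/
theorem dvd_ord_of_ufd_loc {Bj : Subring F0} (hF : IsFrameTwo A N h Bj)
    (hR0 : ∀ c : K0 A, c ∈ R0 A → algebraMap (K0 A) F0 c ∈ Bj)
    {k Fb C : Type*} [Field k] [Field Fb] [Algebra k Fb] [CommRing C] [IsDedekindDomain C]
    [Algebra k C] [Algebra C Fb] [IsScalarTower k C Fb] [IsFractionRing C Fb]
    (ρ : ↥(RwK0 A N) →+* Fb)
    (hρ : ∀ x : ↥(RwK0 A N), ρ x = 0 ↔ (x : F0) ∈ (RwK0 A N).nonunits)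
    (rd : Bj →+* C)
    (hrd : ∀ (b : Bj) (hb : (b : F0) ∈ RwK0 A N), algebraMap C Fb (rd b) = ρ ⟨(b : F0), hb⟩)
    (Q : Place k Fb) (hQ : ContainsB C Q)
    (𝔫 : Ideal Bj) [𝔫.IsPrime] (h𝔫 : ∀ b : Bj, b ∈ 𝔫 ↔ rd b ∈ (primeOfPlace Q hQ).asIdeal)
    [UniqueFactorizationMonoid (Localization.AtPrime 𝔫)]
    (m : ℕ) (u₀ : F0ˣ)
    (hu1 : (u₀ : F0) ∈ RwK0 A N) (hu1' : (u₀ : F0)⁻¹ ∈ RwK0 A N)
    (hu2 : (u₀ : F0) ∈ (redData2K0 A N h).Rw) (hu2' : (u₀ : F0)⁻¹ ∈ (redData2K0 A N h).Rw)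
    (hK : ∀ P : Place Kb (FK N), (∀ b : Bj, mapK0Bar A N (b : F0) ∈ P.toValuationSubring) →
      (m : ℤ) ∣ P.ord (mapK0Bar A N (u₀ : F0))) :
    (m : ℤ) ∣ Q.ord (ρ ⟨(u₀ : F0), hu1⟩) := by
  obtain ⟨i1, i2, i3, f, hf1, hf2, hf3⟩ := hF
  have hq : q.Prime := h.prime
  -- `q ∈ Bj`
  have hqR : ((q0 A q : R0 A) : K0 A) ∈ R0 A := (q0 A q).2
  have hqB : (q : F0) ∈ Bj := by
    have := hR0 _ hqR
    rwa [Fermat.Agent.GL.Final.H5UnifK0.algebraMap_q0] at this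
  -- `Bj ⊆ W₁`
  have hBW1 : ∀ b : Bj, (b : F0) ∈ RwK0 A N := by
    intro b
    have h1 : (b : F0) ∈ V1 F0 (f 0) := algebraMap_mem_V1 (f 0) b
    rw [hf1 0] at h1
    exact h1
  -- the kernel of `rd` is the first vertical prime
  have hW0 : W2 A N h 0 = RwK0 A N := rfl
  have hker : ∀ b : Bj, rd b = 0 ↔ b ∈ (f 0).1 := by
    intro b
    rw [hf2 0 b, hW0, ← hρ ⟨(b : F0), hBW1 b⟩, ← hrd b (hBW1 b),
      map_eq_zero_iff _ (IsFractionRing.injective C Fb)]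
  have hf0𝔫 : (f 0).1 ≤ 𝔫 := by
    intro b hb
    rw [h𝔫, (hker b).2 hb]
    exact Ideal.zero_mem _
  -- the `hord` hypothesis
  have hord : ∀ 𝔭 : HtOne Bj, 𝔭.1 ≤ 𝔫 → ∃ z : F0, z ≠ 0 ∧ UnitAt 𝔭 ((u₀ : F0) * z ^ m) := by
    intro 𝔭 _
    by_cases hq𝔭 : (⟨(q : F0), hqB⟩ : Bj) ∈ 𝔭.1
    · obtain ⟨i, rfl⟩ := hf3 𝔭 ⟨(q : F0), hqB⟩ rfl hq𝔭
      refine hord_of_unitAt m ?_
      unfold UnitAt
      rw [hf1 i]
      fin_cases i
      · exact ⟨hu1, hu1'⟩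
      · exact ⟨hu2, hu2'⟩
    · refine hord_horizontal_loc A N m u₀ 𝔭 (fun P hP => hK P fun b => ?_) ?_
      · exact (hP (b : F0)).2 (algebraMap_mem_V1 𝔭 b)
      · refine algebraMap_K0_mem_of_baseRing A hq hA (algebraMap (K0 A) F0) (V1 F0 𝔭) ?_ ?_
        · intro c hc
          exact algebraMap_mem_V1 𝔭 ⟨_, hR0 c hc⟩
        · have h1 := inv_algebraMap_mem_V1 (F := F0) 𝔭 hq𝔭
          have e : algebraMap Bj F0 (⟨(q : F0), hqB⟩ : Bj) = (q : F0) := rfl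
          rw [e] at h1
          exact h1
  -- the Kummer datum
  obtain ⟨g₁, c, s, hc, hs, hgcs⟩ := exists_kummer_datum_of_ufd 𝔫 (Localization.AtPrime 𝔫) m
    (u₀ : F0) u₀.ne_zero hord
  have hsW : (s : F0) ∈ RwK0 A N := hBW1 s
  have hcW : (c : F0) ∈ RwK0 A N := hBW1 c
  have hs' : (s : F0)⁻¹ ∈ RwK0 A N := by
    refine inv_mem_of_not_mem_nonunits _ hsW fun hh => hs (hf0𝔫 ((hf2 0 s).2 (hW0 ▸ hh)))
  have hc' : (c : F0)⁻¹ ∈ RwK0 A N := by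
    refine inv_mem_of_not_mem_nonunits _ hcW fun hh => hc (hf0𝔫 ((hf2 0 c).2 (hW0 ▸ hh)))
  have hs0 : (s : F0) ≠ 0 := fun h0 => hs (by
    have : s = 0 := Subtype.ext h0
    rw [this]; exact Ideal.zero_mem _)
  have hc0 : (c : F0) ≠ 0 := fun h0 => hc (by
    have : c = 0 := Subtype.ext h0
    rw [this]; exact Ideal.zero_mem _)
  obtain ⟨g, hgcs', hg0, hgW, hgW'⟩ : ∃ g : F0, g ^ m * (u₀ : F0) * (s : F0) = (c : F0) ∧
      g ≠ 0 ∧ g ∈ RwK0 A N ∧ g⁻¹ ∈ RwK0 A N := by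
    by_cases hm : m = 0
    · refine ⟨1, ?_, one_ne_zero, (RwK0 A N).one_mem, by rw [inv_one]; exact (RwK0 A N).one_mem⟩
      have := hgcs
      rw [hm, pow_zero] at this
      rw [hm, pow_zero]
      exact this
    · have hg0 : g₁ ≠ 0 := by
        intro h0
        have := hgcs
        rw [h0, zero_pow hm, zero_mul, zero_mul] at this
        exact hc0 this.symm
      refine ⟨g₁, hgcs, hg0, ?_⟩
      refine unit_of_pow_mul (RwK0 A N) hm (a := (u₀ : F0) * (s : F0)) (c := (c : F0))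
        (mul_ne_zero u₀.ne_zero hs0) hc0 ((RwK0 A N).mul_mem _ _ hu1 hsW) ?_ hcW hc' ?_
      · rw [mul_inv]
        exact (RwK0 A N).mul_mem _ _ hu1' hs'
      · rw [← mul_assoc]
        exact hgcs
  -- apply `ρ`
  have hprod : (⟨g, hgW⟩ : ↥(RwK0 A N)) ^ m * ⟨(u₀ : F0), hu1⟩ * ⟨(s : F0), hBW1 s⟩ =
      ⟨(c : F0), hBW1 c⟩ := Subtype.ext hgcs'
  have hρeq := congrArg ρ hprod
  rw [map_mul, map_mul, map_pow, ← hrd s (hBW1 s), ← hrd c (hBW1 c)] at hρeq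
  have hub : ρ ⟨(u₀ : F0), hu1⟩ ≠ 0 := by
    rw [Ne, hρ]
    exact not_mem_nonunits_of_mem _ u₀.ne_zero hu1 hu1'
  have hgb : ρ ⟨g, hgW⟩ ≠ 0 := by
    rw [Ne, hρ]
    exact not_mem_nonunits_of_mem _ hg0 hgW hgW'
  exact dvd_ord_of_datum Q hQ (fun hh => hs ((h𝔫 s).2 hh)) (fun hh => hc ((h𝔫 c).2 hh))
    hub hgb hρeq

end Step

end Fermat.Agent.GZ.LocP.A4Loc

end
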