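/-
GATE-Z / LOC-p, building block A4LOC of (b)=BOB (helper38), file 3: **the finite chart, LOCAL form**.

Twin of `GB/A/A4/Finite.dvd_ord_finite` (helper84) at level `N' ℓ` (η-route hypotheses): the global
Kummer hypothesis is replaced by `m ∣ ord_P (mapK0Bar u₀)` at the places `P` of `F_N / ℚ̄` at which
`j` is regular (the non-cuspidal places).

* `ufd_finite` : the factoriality of the local rings of the finite chart `B_R`, extracted from the
  proof of `dvd_ord_finite`;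
* `dvd_ord_finite_loc`.
-/
import Fermat.Agent.GB.A.A4.Finite
import Fermat.Agent.GZ.LocP.A4Loc.Chart

set_option autoImplicit false
set_option linter.unusedSectionVars false

noncomputable section

namespace Fermat.Agent.GZ.LocP.A4Loc

open ModularCurve IsLocalRing AlgebraicCurve
open Fermat.Agent.GL.KrullHeightOne Fermat.Agent.GL.Frame.HeightOne Fermat.Agent.GL.Frame.Kummer
open Fermat.Agent.GL.Val.GaussK0 Fermat.Agent.GL.Val.SecondK0 Fermat.Agent.GL.Val.L1eLower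
open Fermat.Agent.GL.Val.RamK0 Fermat.Agent.GL.MultiVal
open Fermat.Agent.GL.Local.InertiaField
open Fermat.Agent.GJ.KumGroup Fermat.Agent.GJ.J1 Fermat.Agent.GJ.J1.Val
open Fermat.Agent.GL.Frame.HorizDiv Fermat.Agent.GL.Frame.HorizHord
open Fermat.Agent.GK.AL Fermat.Agent.GL.AL Fermat.Agent.GK.QS
open Fermat.Agent.Common_helper32
open Fermat.Agent.S24_helper6
open Fermat.Agent.GL.Final.H5UnifK0
open Fermat.Agent.GL.Frame.Inst
open Fermat.Agent.S24 Fermat.Agent.GL.Val.DegBase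
open Fermat.Agent.GB.A4.FrameTwo Fermat.Agent.GB.A4.LocalKummer Fermat.Agent.GB.A4.ChartStep
open Fermat.Agent.GB.A4.Finite
open Fermat.Agent.GL.BRingK0 Fermat.Agent.GL.BRingChart Fermat.Agent.GL.Thick
open Fermat.Agent.GL.EtaK0 Fermat.Agent.GL.EtaInstK0B Fermat.Agent.GL.EtaInstK0Aux
open Fermat.Agent.GL.RatBRing

attribute [local instance] Fermat.Agent.GL.Frame.InstK0.algSubringFullC

variable {A : ValuationSubring Qb} {N' : ℕ} [NeZero N'] {ℓ : ℕ} [Fact ℓ.Prime] [NeZero ℓ]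
  (h : ExactDvd ℓ (N' * ℓ)) (hℓN : ¬ ℓ ∣ N') (hA : A.LiesOverPrime ℓ)

local notation "F0" => modularFunctionFieldFullC (K0 A) (N' * ℓ)
local notation "kA" => IsLocalRing.ResidueField A

variable [IsDedekindDomain (CRing N' A)] [IsFractionRing (CRing N' A) (FresBar N' A)]

set_option maxHeartbeats 1000000 in
/-- **the local rings of the finite chart are factorial** (η-route at the nodes, `q` elsewhere). -/
theorem ufd_finite (h2 : ℓ = 2 → 3 ∣ N') (h3 : ℓ = 3 → 2 ∣ N')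
    (hν2 : nuTwo N' = 0) (hν3 : nuThree N' = 0)
    (Q : Place kA (FresBar N' A)) (hQ : ContainsB (CRing N' A) Q) :
    UniqueFactorizationMonoid
      (Localization.AtPrime (Ideal.comap (redC1K0 h hℓN hA) (primeOfPlace Q hQ).asIdeal)) := by
  have hF := frame_BRingK0 h hA
  have hR0 : ∀ c : K0 A, c ∈ R0 A → algebraMap (K0 A) F0 c ∈ BRingK0 N' ℓ A h :=
    fun c hc => algebraMap_mem_BRingK0 N' ℓ A h ⟨c, hc⟩
  have : ((primeOfPlace Q hQ).asIdeal).IsPrime := (primeOfPlace Q hQ).isPrime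
  have h𝔫p : (Ideal.comap (redC1K0 h hℓN hA) (primeOfPlace Q hQ).asIdeal).IsPrime :=
    Ideal.comap_isPrime _ _
  have hker1 : ∀ b : BRingK0 N' ℓ A h, redC1K0 h hℓN hA b = 0 ↔
      (b : F0) ∈ (RwK0 A (N' * ℓ)).nonunits := fun b => redC1K0_eq_zero_iff h hA hℓN
  by_cases hnode : ∀ b : BRingK0 N' ℓ A h,
      (b : F0) ∈ (redData2K0 A (N' * ℓ) h).Rw.nonunits →
        b ∈ Ideal.comap (redC1K0 h hℓN hA) (primeOfPlace Q hQ).asIdeal
  · -- a node: the η-route
    obtain ⟨J', hJ, hBT, -, -, -, hmap⟩ := exists_ideal_K0 h hℓN hA h2 h3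
    have hJP : J' ≤ (primeOfPlace Q hQ).asIdeal := by
      rw [← hmap, Ideal.map_le_iff_le_comap]
      intro b hb
      exact hnode b ((mem_P2K0_iff h hℓN hA).1 hb)
    obtain ⟨y, hy, c, hyg, hc⟩ := exists_lift_pow_eq_K0_B h hℓN hA h2 h3 hν2 hν3 hJ hBT
      (primeOfPlace Q hQ) hJP
    have hg0 := etaBK0_ne_zero h hℓN hA
    have hc0 : c ≠ 0 := fun h0 => hc (by rw [h0, map_zero]; exact Ideal.zero_mem _)
    have hy0 : y ≠ 0 := by
      intro h0
      rw [h0, zero_pow (by norm_num)] at hyg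
      exact mul_ne_zero hg0 hc0 hyg.symm
    refine ufd_node_of_frame hF (redC2K0 h hℓN hA) (redC2K0_surjective hℓN hA h2 h3)
      (fun b => ?_) _ hnode (n := 12) (by norm_num) (fun z hz => ?_)
      ((mem_P2K0_iff h hℓN hA).1 hy) hyg hc hy0
    · rw [← mem_P2K0_iff h hℓN hA, mem_P2K0]
    · exact etaBK0_dvd_pow h hℓN hA ((mem_P2K0_iff h hℓN hA).2 hz)
  · -- one component
    push Not at hnode
    have hle1 : ∀ b : BRingK0 N' ℓ A h, (b : F0) ∈ (RwK0 A (N' * ℓ)).nonunits →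
        b ∈ Ideal.comap (redC1K0 h hℓN hA) (primeOfPlace Q hQ).asIdeal := fun b hb => by
      rw [Ideal.mem_comap, (hker1 b).2 hb]
      exact Ideal.zero_mem _
    exact ufd_typeI_of_frame hA hF hR0 (redC1K0 h hℓN hA)
      (redC1K0_surjective h hℓN hA h2 h3) hker1
      (Ideal.comap (redC1K0 h hℓN hA) (primeOfPlace Q hQ).asIdeal) hle1 hnode

omit [IsDedekindDomain (CRing N' A)] [IsFractionRing (CRing N' A) (FresBar N' A)] in
/-- a place of `F_N / ℚ̄` at which `j` is regular contains the (image of the) finite chart ring. -/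
theorem mapK0Bar_mem_of_jF_mem (P : Place Kb (FK (N' * ℓ)))
    (hj : jF (N' * ℓ) ∈ P.toValuationSubring) (b : BRingK0 N' ℓ A h) :
    mapK0Bar A (N' * ℓ) (b : F0) ∈ P.toValuationSubring := by
  have hb : mapK0Bar A (N' * ℓ) (b : F0) ∈ BRing N' ℓ A h := mem_BRingK0_iff_map.1 b.2
  exact mem_valuationSubring_of_mem_icRing Kb {jF (N' * ℓ)} P.toValuationSubring
    (fun r => P.algebraMap_mem' r) (by rintro _ rfl; exact hj) (mem_BRing.1 hb).1

set_option maxHeartbeats 1000000 in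
/-- **the finite chart, local form**: `m ∣ ord_Q (red₁ u₀)` at every place `Q` of the first
component at which `j~` is regular, for a common unit `u₀` of the two vertical valuations whose
divisor over `ℚ̄` is `m`-divisible AWAY FROM THE CUSPS. -/
theorem dvd_ord_finite_loc (h2 : ℓ = 2 → 3 ∣ N') (h3 : ℓ = 3 → 2 ∣ N')
    (hν2 : nuTwo N' = 0) (hν3 : nuThree N' = 0)
    (Q : Place kA (FresBar N' A)) (hQ : ContainsB (CRing N' A) Q)
    (m : ℕ) (u₀ : F0ˣ)
    (hu1 : (u₀ : F0) ∈ RwK0 A (N' * ℓ)) (hu1' : (u₀ : F0)⁻¹ ∈ RwK0 A (N' * ℓ))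
    (hu2 : (u₀ : F0) ∈ (redData2K0 A (N' * ℓ) h).Rw)
    (hu2' : (u₀ : F0)⁻¹ ∈ (redData2K0 A (N' * ℓ) h).Rw)
    (hK : ∀ P : Place Kb (FK (N' * ℓ)), jF (N' * ℓ) ∈ P.toValuationSubring →
      (m : ℤ) ∣ P.ord (mapK0Bar A (N' * ℓ) (u₀ : F0))) :
    (m : ℤ) ∣ Q.ord (rho1 hℓN hA ⟨(u₀ : F0), hu1⟩) := by
  have hF := frame_BRingK0 h hA
  have hR0 : ∀ c : K0 A, c ∈ R0 A → algebraMap (K0 A) F0 c ∈ BRingK0 N' ℓ A h :=
    fun c hc => algebraMap_mem_BRingK0 N' ℓ A h ⟨c, hc⟩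
  have : ((primeOfPlace Q hQ).asIdeal).IsPrime := (primeOfPlace Q hQ).isPrime
  have h𝔫p : (Ideal.comap (redC1K0 h hℓN hA) (primeOfPlace Q hQ).asIdeal).IsPrime :=
    Ideal.comap_isPrime _ _
  have hufd := ufd_finite h hℓN hA h2 h3 hν2 hν3 Q hQ
  refine dvd_ord_of_ufd_loc hA hF hR0 (rho1 hℓN hA) (rho1_eq_zero_iff hℓN hA)
    (redC1K0 h hℓN hA) (fun b hb => coe_redC1K0 h hℓN hA b hb) Q hQ
    (Ideal.comap (redC1K0 h hℓN hA) (primeOfPlace Q hQ).asIdeal) (fun b => Iff.rfl)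
    m u₀ hu1 hu1' hu2 hu2' (fun P hP => hK P ?_)
  have hj := hP ⟨jC (N' * ℓ) (K0 A), jC_mem_BRingK0 N' ℓ A h⟩
  rwa [mapK0Bar_jC] at hj

end Fermat.Agent.GZ.LocP.A4Loc

end
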