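/-
GATE-Z / LOC-p, building block A4LOC of (b)=BOB (helper38), file 4: **assembly at level `N' ℓ`**
(η-route hypotheses) — the LOCAL form of helper84's `GB/A/A4/Main.nodeHyp`.

For a unit `u` of `F_{N'ℓ} / ℚ̄` which is `I_A`-fixed, a unit for both Gauss valuations, and whose
divisor is `m`-divisible AWAY FROM THE CUSPS (`m ∣ ord_P u` at every place `P` at which `j` is
regular; NO hypothesis at the cusps, `u` need not be an `m`-th power times a constant), both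
reductions have `m`-divisible order at every place of the residue function field at which `j~` is
regular.

* `NodeHypLoc h A m c` : the local hypothesis shape, with a constant `c` (`c = 1` here, `c = 36`
  after the descent of file 5);
* `mem_of_wAut_jF` : [W-REG] `j ∈ O_P ⟹ j ∈ O_{W P}` (`W j = j(q^ℓ)` is integral over `ℚ̄[j]`);
* `dvd_ord_rho1_loc`, `dvd_ord_red1_loc`, `dvd_ord_red2_loc`, **`nodeHypLoc`**;
* `nodeHypLoc_of_four_dvd` : the levels `N' ℓ`, `4 ∣ N'`, `ℓ` odd (input of the descent).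
-/
import Fermat.Agent.GB.A.A4.LevelFour
import Fermat.Agent.GZ.LocP.A4Loc.Finite
import Fermat.Agent.GK.QS.IntRN

set_option autoImplicit false
set_option linter.unusedSectionVars false

noncomputable section

namespace Fermat.Agent.GZ.LocP.A4Loc

open ModularCurve IsLocalRing AlgebraicCurve
open Fermat.Agent.S24
open Fermat.Agent.GL.Val.GaussK0 Fermat.Agent.GL.Val.SecondK0
open Fermat.Agent.GL.Local.InertiaField
open Fermat.Agent.GJ.KumGroup Fermat.Agent.GJ.J1 Fermat.Agent.GJ.J1.Val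
open Fermat.Agent.GJ.Kum.KumType
open Fermat.Agent.GK.AL Fermat.Agent.GL.AL Fermat.Agent.GK.QS
open Fermat.Agent.GK.UqKronecker
open Fermat.Agent.Common_helper32
open Fermat.Agent.S24_helper6
open Fermat.Agent.GL.Thick Fermat.Agent.GL.CRingInv
open Fermat.Agent.GB.A4.Finite Fermat.Agent.GB.A4.PlaceSplit
open Fermat.Agent.GB.A.FP

/-! ### the local hypothesis shape -/

section Shape

variable {M : ℕ} [NeZero M] {q : ℕ}

/-- **the LOCAL form of `FP.NodeHyp`, with a constant**: for an `I_A`-fixed unit `u` of `F_M`, unit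
for both Gauss valuations, whose divisor over `ℚ̄` is `m`-divisible away from the cusps, the two
reductions have `c · ord_Q` divisible by `m` at every place `Q` of the residue function field at
which `j~` is regular. -/
def NodeHypLoc (h : ExactDvd q M) (A : ValuationSubring Kb) (m : ℕ) (c : ℤ) : Prop :=
  ∀ u : (FK M)ˣ,
    (∀ σ ∈ A.inertiaSubgroupIn ℚ, galUnits M σ u = u) →
    ∀ hu : BothUnit h A u,
    (∀ P : Place Kb (FK M), jF M ∈ P.toValuationSubring → (m : ℤ) ∣ P.ord (u : FK M)) →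
      (∀ Q : Place (ResidueField A) (FresBar M A),
        Fermat.Agent.GK.QS.jt M A ∈ Q.toValuationSubring →
          (m : ℤ) ∣ c * Q.ord ((redUnit₁ hu : (FresBar M A)ˣ) : FresBar M A)) ∧
      (∀ Q : Place (ResidueField A) (FresBar M A),
        Fermat.Agent.GK.QS.jt M A ∈ Q.toValuationSubring →
          (m : ℤ) ∣ c * Q.ord ((redUnit₂ hu : (FresBar M A)ˣ) : FresBar M A))

/-- `NodeHypLoc` only depends on the level up to equality -/
theorem nodeHypLoc_congr {M' : ℕ} [NeZero M'] (e : M = M') (h : ExactDvd q M)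
    (h' : ExactDvd q M') (A : ValuationSubring Kb) (m : ℕ) (c : ℤ) (hN : NodeHypLoc h' A m c) :
    NodeHypLoc h A m c := by
  subst e
  exact hN

/-- [W-REG]: if `j` is regular at `P`, then `j` is regular at `W • P`. -/
theorem jF_mem_wAut_smul (h : ExactDvd q M) (P : Place Kb (FK M))
    (hj : jF M ∈ P.toValuationSubring) :
    jF M ∈ ((wAut h : FK M ≃ₐ[Kb] FK M) • P).toValuationSubring := by
  have : NeZero q := ⟨h.prime.ne_zero⟩
  have h1 : wAut h (jF M) ∈ P.toValuationSubring := by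
    rw [Fermat.Agent.GK.AL.wAut_jF, jQ_eq_jdF]
    exact Fermat.Agent.GL.Frame.Inst.mem_valuationSubring_of_mem_icRing Kb {jF M}
      P.toValuationSubring (fun r => P.algebraMap_mem' r) (by rintro _ rfl; exact hj)
      (regFin_jdF M h.dvd)
  have h2 := ValuationSubring.smul_mem_pointwise_smul (wAut h : FK M ≃ₐ[Kb] FK M)
    (wAut h (jF M)) P.toValuationSubring h1
  rw [AlgEquiv.smul_def, wAut_wAut] at h2
  exact h2

/-- the order of `W x` at `P` is the order of `x` at `W • P`. -/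
theorem ord_wAut (h : ExactDvd q M) (P : Place Kb (FK M)) (x : FK M) :
    P.ord (wAut h x) = ((wAut h : FK M ≃ₐ[Kb] FK M) • P).ord x := by
  have h1 := Place.ord_smul (wAut h : FK M ≃ₐ[Kb] FK M) P (wAut h x)
  rw [wAut_wAut] at h1
  exact h1.symm

/-- the local divisibility hypothesis is stable under `W`. -/
theorem hloc_wAut (h : ExactDvd q M) (m : ℕ) (x : FK M)
    (hK : ∀ P : Place Kb (FK M), jF M ∈ P.toValuationSubring → (m : ℤ) ∣ P.ord x)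
    (P : Place Kb (FK M)) (hj : jF M ∈ P.toValuationSubring) :
    (m : ℤ) ∣ P.ord (wAut h x) := by
  rw [ord_wAut]
  exact hK _ (jF_mem_wAut_smul h P hj)

end Shape

/-! ### Places of equal intermediate fields -/

section Transport

variable {k L : Type*} [Field k] [Field L] [Algebra k L]

/-- places transport along an equality of intermediate fields, with membership -/
theorem exists_place_of_eq' {E1 E2 : IntermediateField k L} (e : E1 = E2) (Q : Place k E1) :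
    ∃ Q' : Place k E2, (∀ x : E1,
      Q'.ord (IntermediateField.inclusion (le_of_eq e) x) = Q.ord x) ∧
      ∀ (x : E1) (y : E2), (y : L) = (x : L) → x ∈ Q.toValuationSubring →
        y ∈ Q'.toValuationSubring := by
  subst e
  refine ⟨Q, fun x => ?_, fun x y hxy hx => ?_⟩
  · congr 1
  · have e1 : y = x := Subtype.ext hxy
    rw [e1]
    exact hx

end Transport

variable {A : ValuationSubring Qb} {N' : ℕ} [NeZero N'] {ℓ : ℕ} [Fact ℓ.Prime] [NeZero ℓ]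
  (h : ExactDvd ℓ (N' * ℓ)) (hℓN : ¬ ℓ ∣ N') (hA : A.LiesOverPrime ℓ)

local notation "F0" => modularFunctionFieldFullC (K0 A) (N' * ℓ)
local notation "kA" => IsLocalRing.ResidueField A

/-- **every finite place of the first component, at level `N'`** -/
theorem dvd_ord_rho1_loc (h2 : ℓ = 2 → 3 ∣ N') (h3 : ℓ = 3 → 2 ∣ N')
    (hν2 : nuTwo N' = 0) (hν3 : nuThree N' = 0)
    (m : ℕ) (u₀ : F0ˣ)
    (hu1 : (u₀ : F0) ∈ RwK0 A (N' * ℓ)) (hu1' : (u₀ : F0)⁻¹ ∈ RwK0 A (N' * ℓ))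
    (hu2 : (u₀ : F0) ∈ (redData2K0 A (N' * ℓ) h).Rw)
    (hu2' : (u₀ : F0)⁻¹ ∈ (redData2K0 A (N' * ℓ) h).Rw)
    (hK : ∀ P : Place Kb (FK (N' * ℓ)), jF (N' * ℓ) ∈ P.toValuationSubring →
      (m : ℤ) ∣ P.ord (mapK0Bar A (N' * ℓ) (u₀ : F0)))
    (Q : Place kA (FresBar N' A))
    (hj : Fermat.Agent.GK.QS.jt N' A ∈ Q.toValuationSubring) :
    (m : ℤ) ∣ Q.ord (rho1 hℓN hA ⟨(u₀ : F0), hu1⟩) := by
  have : IsDedekindDomain (CRing N' A) :=
    Fermat.Agent.GK.SS.Modular.isDedekindDomain_CRing N' ℓ A hA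
  have : IsFractionRing (CRing N' A) (FresBar N' A) :=
    Fermat.Agent.GL.SmallQ.isFractionRing_CRing N' A
  exact dvd_ord_finite_loc h hℓN hA h2 h3 hν2 hν3 Q (containsB_CRing N' A Q hj) m u₀
    hu1 hu1' hu2 hu2' hK

include hℓN hA in
/-- **the first component**, `K₀`-rational shape -/
theorem dvd_ord_red1_loc (h2 : ℓ = 2 → 3 ∣ N') (h3 : ℓ = 3 → 2 ∣ N')
    (hν2 : nuTwo N' = 0) (hν3 : nuThree N' = 0)
    (m : ℕ) (u₀ : F0ˣ)
    (hu1 : (u₀ : F0) ∈ RwK0 A (N' * ℓ)) (hu1' : (u₀ : F0)⁻¹ ∈ RwK0 A (N' * ℓ))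
    (hu2 : (u₀ : F0) ∈ (redData2K0 A (N' * ℓ) h).Rw)
    (hu2' : (u₀ : F0)⁻¹ ∈ (redData2K0 A (N' * ℓ) h).Rw)
    (hK : ∀ P : Place Kb (FK (N' * ℓ)), jF (N' * ℓ) ∈ P.toValuationSubring →
      (m : ℤ) ∣ P.ord (mapK0Bar A (N' * ℓ) (u₀ : F0)))
    (hx : mapK0Bar A (N' * ℓ) (u₀ : F0) ∈ (redDataBar (N' * ℓ) A).Rw)
    (Q : Place kA (FresBar (N' * ℓ) A))
    (hj : Fermat.Agent.GK.QS.jt (N' * ℓ) A ∈ Q.toValuationSubring) :
    (m : ℤ) ∣ Q.ord ((redDataBar (N' * ℓ) A).red ⟨mapK0Bar A (N' * ℓ) (u₀ : F0), hx⟩) := by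
  obtain ⟨Q', hQ', hQmem⟩ := exists_place_of_eq' (fresBar_mul_eq N' ℓ A hℓN hA) Q
  have hj' : Fermat.Agent.GK.QS.jt N' A ∈ Q'.toValuationSubring :=
    hQmem (Fermat.Agent.GK.QS.jt (N' * ℓ) A) (Fermat.Agent.GK.QS.jt N' A)
      (by rw [Fermat.Agent.GK.QS.coe_jt, Fermat.Agent.GK.QS.coe_jt]) hj
  have h1 := dvd_ord_rho1_loc h hℓN hA h2 h3 hν2 hν3 m u₀ hu1 hu1' hu2 hu2' hK Q' hj'
  have e : rho1 hℓN hA ⟨(u₀ : F0), hu1⟩ = IntermediateField.inclusion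
      (le_of_eq (fresBar_mul_eq N' ℓ A hℓN hA))
      ((redDataBar (N' * ℓ) A).red ⟨mapK0Bar A (N' * ℓ) (u₀ : F0), hx⟩) := rfl
  rw [e, hQ'] at h1
  exact h1

include hℓN hA in
/-- **the second component**, `K₀`-rational shape -/
theorem dvd_ord_red2_loc (h2 : ℓ = 2 → 3 ∣ N') (h3 : ℓ = 3 → 2 ∣ N')
    (hν2 : nuTwo N' = 0) (hν3 : nuThree N' = 0)
    (m : ℕ) (u₀ : F0ˣ)
    (hu1 : (u₀ : F0) ∈ RwK0 A (N' * ℓ)) (hu1' : (u₀ : F0)⁻¹ ∈ RwK0 A (N' * ℓ))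
    (hu2 : (u₀ : F0) ∈ (redData2K0 A (N' * ℓ) h).Rw)
    (hu2' : (u₀ : F0)⁻¹ ∈ (redData2K0 A (N' * ℓ) h).Rw)
    (hK : ∀ P : Place Kb (FK (N' * ℓ)), jF (N' * ℓ) ∈ P.toValuationSubring →
      (m : ℤ) ∣ P.ord (mapK0Bar A (N' * ℓ) (u₀ : F0)))
    (hx : mapK0Bar A (N' * ℓ) (u₀ : F0) ∈ (redData2 (N' * ℓ) A h).Rw)
    (Q : Place kA (FresBar (N' * ℓ) A))
    (hj : Fermat.Agent.GK.QS.jt (N' * ℓ) A ∈ Q.toValuationSubring) :
    (m : ℤ) ∣ Q.ord ((redData2 (N' * ℓ) A h).red ⟨mapK0Bar A (N' * ℓ) (u₀ : F0), hx⟩) := by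
  -- `v₀ := W u₀`
  set W := wAutK0 A (N' * ℓ) h with hW
  have hWW : ∀ x : F0, W (W x) = x := wAutK0_wAutK0 A (N' * ℓ) h
  let v₀ : F0ˣ := Units.map ((W : F0 ≃+* F0) : F0 →* F0) u₀
  have hv : (v₀ : F0) = W (u₀ : F0) := rfl
  have hvi : (v₀ : F0)⁻¹ = W ((u₀ : F0)⁻¹) := by rw [hv, map_inv₀]
  have hv1 : (v₀ : F0) ∈ RwK0 A (N' * ℓ) := hu2
  have hv1' : (v₀ : F0)⁻¹ ∈ RwK0 A (N' * ℓ) := by rw [hvi]; exact hu2'
  have hv2 : (v₀ : F0) ∈ (redData2K0 A (N' * ℓ) h).Rw := by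
    rw [mem_Rw2K0_iff_wAutK0, hv, hWW]; exact hu1
  have hv2' : (v₀ : F0)⁻¹ ∈ (redData2K0 A (N' * ℓ) h).Rw := by
    rw [mem_Rw2K0_iff_wAutK0, hvi, hWW]; exact hu1'
  have hvK : ∀ P : Place Kb (FK (N' * ℓ)), jF (N' * ℓ) ∈ P.toValuationSubring →
      (m : ℤ) ∣ P.ord (mapK0Bar A (N' * ℓ) (v₀ : F0)) := by
    intro P hP
    have e : mapK0Bar A (N' * ℓ) (v₀ : F0) = wAut h (mapK0Bar A (N' * ℓ) (u₀ : F0)) := by
      rw [hv, hW, mapK0Bar_wAutK0]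
    rw [e]
    exact hloc_wAut h m _ hK P hP
  have hxv : mapK0Bar A (N' * ℓ) (v₀ : F0) ∈ (redDataBar (N' * ℓ) A).Rw := by
    rw [hv, hW, mapK0Bar_wAutK0]; exact hx
  have h1 := dvd_ord_red1_loc h hℓN hA h2 h3 hν2 hν3 m v₀ hv1 hv1' hv2 hv2' hvK hxv Q hj
  have e : (redData2 (N' * ℓ) A h).red ⟨mapK0Bar A (N' * ℓ) (u₀ : F0), hx⟩ =
      (redDataBar (N' * ℓ) A).red ⟨mapK0Bar A (N' * ℓ) (v₀ : F0), hxv⟩ := by
    rw [red2_eq]
    congr 1
    apply Subtype.ext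
    show wAut h (mapK0Bar A (N' * ℓ) (u₀ : F0)) = mapK0Bar A (N' * ℓ) (W (u₀ : F0))
    rw [hW, mapK0Bar_wAutK0]
  rw [e]
  exact h1

include hℓN hA in
/-- **(A4), LOCAL form** at level `N' ℓ`, under the hypotheses of the η-route. -/
theorem nodeHypLoc (h2 : ℓ = 2 → 3 ∣ N') (h3 : ℓ = 3 → 2 ∣ N')
    (hν2 : nuTwo N' = 0) (hν3 : nuThree N' = 0) (m : ℕ) :
    NodeHypLoc h A m 1 := by
  intro u hfix hu hloc
  -- `u` is `K₀`-rational
  obtain ⟨x0, hx0⟩ := Fermat.Agent.GL.RatLiftK0.exists_mapK0Bar_of_fixed A (N' * ℓ)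
    ((u : (FK (N' * ℓ))ˣ) : FK (N' * ℓ)) (fun σ hσ => by
      have := congrArg (fun v : (FK (N' * ℓ))ˣ => (v : FK (N' * ℓ))) (hfix σ hσ)
      exact this)
  have hx00 : x0 ≠ 0 := by
    intro h0
    rw [h0, map_zero] at hx0
    exact (u : (FK (N' * ℓ))ˣ).ne_zero hx0.symm
  let u₀ : F0ˣ := Units.mk0 x0 hx00
  have hu₀ : (u₀ : F0) = x0 := rfl
  have hmap : mapK0Bar A (N' * ℓ) (u₀ : F0) = ((u : (FK (N' * ℓ))ˣ) : FK (N' * ℓ)) := hx0
  have hmapi : mapK0Bar A (N' * ℓ) ((u₀ : F0)⁻¹) =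
      (((u : (FK (N' * ℓ))ˣ)⁻¹ : (FK (N' * ℓ))ˣ) : FK (N' * ℓ)) := by
    rw [map_inv₀, hmap, Units.val_inv_eq_inv_val]
  have hu1 : (u₀ : F0) ∈ RwK0 A (N' * ℓ) := by
    rw [mem_Rw1K0_iff, hmap]; exact hu.1.1
  have hu1' : (u₀ : F0)⁻¹ ∈ RwK0 A (N' * ℓ) := by
    rw [mem_Rw1K0_iff, hmapi]; exact hu.1.2
  have hu2 : (u₀ : F0) ∈ (redData2K0 A (N' * ℓ) h).Rw := by
    rw [mem_Rw2K0_iff, hmap]; exact hu.2.1
  have hu2' : (u₀ : F0)⁻¹ ∈ (redData2K0 A (N' * ℓ) h).Rw := by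
    rw [mem_Rw2K0_iff, hmapi]; exact hu.2.2
  have hK : ∀ P : Place Kb (FK (N' * ℓ)), jF (N' * ℓ) ∈ P.toValuationSubring →
      (m : ℤ) ∣ P.ord (mapK0Bar A (N' * ℓ) (u₀ : F0)) := by
    intro P hP
    rw [hmap]
    exact hloc P hP
  refine ⟨fun Q hj => ?_, fun Q hj => ?_⟩
  · have h1 := dvd_ord_red1_loc h hℓN hA h2 h3 hν2 hν3 m u₀ hu1 hu1' hu2 hu2' hK
      (by rw [hmap]; exact hu.1.1) Q hj
    have e : ((redUnit₁ hu : (FresBar (N' * ℓ) A)ˣ) : FresBar (N' * ℓ) A) =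
        (redDataBar (N' * ℓ) A).red ⟨mapK0Bar A (N' * ℓ) (u₀ : F0),
          by rw [hmap]; exact hu.1.1⟩ := by
      show (redDataBar (N' * ℓ) A).red ⟨_, _⟩ = _
      congr 1
      exact Subtype.ext hmap.symm
    rw [e, one_mul]
    exact h1
  · have h1 := dvd_ord_red2_loc h hℓN hA h2 h3 hν2 hν3 m u₀ hu1 hu1' hu2 hu2' hK
      (by rw [hmap]; exact hu.2.1) Q hj
    have e : ((redUnit₂ hu : (FresBar (N' * ℓ) A)ˣ) : FresBar (N' * ℓ) A) =
        (redData2 (N' * ℓ) A h).red ⟨mapK0Bar A (N' * ℓ) (u₀ : F0),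
          by rw [hmap]; exact hu.2.1⟩ := by
      show (redData2 (N' * ℓ) A h).red ⟨_, _⟩ = _
      congr 1
      exact Subtype.ext hmap.symm
    rw [e, one_mul]
    exact h1

include hℓN hA in
/-- **(A4), LOCAL form, at levels `N' ℓ` with `4 ∣ N'`, `ℓ` odd.** -/
theorem nodeHypLoc_of_four_dvd (h4 : 4 ∣ N') (hℓ2 : ℓ ≠ 2) (m : ℕ) : NodeHypLoc h A m 1 :=
  nodeHypLoc h hℓN hA (fun e => absurd e hℓ2)
    (fun _ => Dvd.dvd.trans (by norm_num) h4)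
    (Fermat.Agent.GB.A4.LevelFour.nuTwo_eq_zero_of_four_dvd h4)
    (Fermat.Agent.GB.A4.LevelFour.nuThree_eq_zero_of_two_dvd (Dvd.dvd.trans (by norm_num) h4)) m

end Fermat.Agent.GZ.LocP.A4Loc

end
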