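/-
GATE-Z / LOC-p, building block A4LOC of (b)=BOB (helper38), file 5: **descent `M·4 → M·2 → M` of
the LOCAL form of (A4), without coprimality** — the `36`-form.

Twin of helper28's `GB/A/Desc/{Level,NodeAll,NodeFinal}` for `NodeHypLoc`:

* `hloc_alphaB` : the local hypothesis `m ∣ ord_P x` at the places `P` of `F_M` at which `j` is
  regular goes UP along `α : F_M → F_{M a}` (`ord_{P'} (α x) = e · ord_P x`, `α j = j`);
* `dvd_mul_ord_of_dvd_above_loc`, `dvd_ord_of_inclAlgebra_loc` : place-divisibility goes DOWN along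
  a finite separable extension of degree `≤ 3` at the price of a factor `6`
  (`e(w | v) ∈ {1, 2, 3}` divides `6`), with a regularity condition carried along;
* `nodeHypLoc_descent_two` : `NodeHypLoc` at level `M·2` with constant `c` ⟹ `NodeHypLoc` at level
  `M` with constant `6 c`;
* **`nodeHypLoc36`** : `NodeHypLoc h A m 36` at EVERY level `M`, `q ∥ M`, `q` odd, `A ∣ q`, for
  EVERY `m` (no hypothesis on the prime factors of `m`);
* `nodeHypLoc_of_coprime_six` : the constant `1` when `m` is prime to `6`.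
-/
import Fermat.Agent.GZ.LocP.A4Loc.Main
import Fermat.Agent.GB.A.Desc.NodeFinal

set_option autoImplicit false
set_option linter.unusedSectionVars false

noncomputable section

namespace Fermat.Agent.GZ.LocP.A4Loc

open ModularCurve IsLocalRing AlgebraicCurve HahnSeries
open Fermat.Agent.S24 Fermat.Agent.GJ.J1 Fermat.Agent.GJ.J1.Val
open Fermat.Agent.GJ.KumGroup Fermat.Agent.GJ.Kum.KumType Fermat.Agent.GJ.HN
open Fermat.Agent.GK.UqKronecker Fermat.Agent.GK.AL Fermat.Agent.GK.SS Fermat.Agent.GK.UTr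
open Fermat.Agent.GB.A.FP Fermat.Agent.GB.A.Desc

local notation "GQ" => (AlgebraicClosure ℚ ≃ₐ[ℚ] AlgebraicClosure ℚ)

/-! ### going up: the function fields `F_M ⊆ F_{M a}` -/

section Up

/-- generic: the local divisibility hypothesis goes up along an integral `φ : F →ₐ[K] F'`. -/
theorem dvd_ord_map_loc {K F F' : Type*} [Field K] [Field F] [Field F'] [Algebra K F]
    [Algebra K F'] (φ : F →ₐ[K] F') (hφ : φ.toRingHom.IsIntegral) (m : ℤ) (x t : F)
    (hK : ∀ P : Place K F, t ∈ P.toValuationSubring → m ∣ P.ord x)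
    (P' : Place K F') (ht : φ t ∈ P'.toValuationSubring) : m ∣ P'.ord (φ x) := by
  letI : Algebra F F' := algebraAlong φ
  have : IsScalarTower K F F' := isScalarTower_along φ
  have : Algebra.IsIntegral F F' := isIntegral_along φ hφ
  have e : φ x = algebraMap F F' x := rfl
  rw [e, P'.ord_restrict]
  exact Dvd.dvd.mul_left (hK (P'.restrict F) ht) _

variable (M a : ℕ) [NeZero M] [NeZero a]

/-- the local divisibility hypothesis goes up along `α : F_M → F_{M a}`. -/
theorem hloc_alphaB (m : ℕ) (x : FK M)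
    (hK : ∀ P : Place Kb (FK M), jF M ∈ P.toValuationSubring → (m : ℤ) ∣ P.ord x)
    (P' : Place Kb (FK (M * a))) (hj : jF (M * a) ∈ P'.toValuationSubring) :
    (m : ℤ) ∣ P'.ord (alphaB M a x) := by
  obtain ⟨hα, -, -, -, -, -⟩ := Fermat.Agent.GJ.HInputs.heckeInputsAlong_bar M a
  refine dvd_ord_map_loc (alphaB M a) hα (m : ℤ) x (jF M) hK P' ?_
  rw [alphaB_jF]
  exact hj

end Up

/-! ### going down: finite separable extensions of degree `≤ 3` -/

section Down

theorem dvd_six_of_le_three {e : ℕ} (he : 0 < e) (he3 : e ≤ 3) : e ∣ 6 := by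
  interval_cases e <;> norm_num

variable {K F F' : Type*} [Field K] [Field F] [Field F'] [Algebra K F] [Algebra K F']
  [Algebra F F'] [IsScalarTower K F F'] [FiniteDimensional F F'] [Algebra.IsSeparable F F']

/-- **descent of divisibility of orders, without coprimality**: if `[F' : F] ≤ 3` and
`m ∣ c · ord_w u` at every place `w` of `F'` at which `t` is regular, then `m ∣ 6 c · ord_v u` at
every place `v` of `F` at which `t` is regular. -/
theorem dvd_mul_ord_of_dvd_above_loc (hd : Module.finrank F F' ≤ 3) (m : ℕ) (c : ℤ) (u t : F)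
    (hu : ∀ w : Place K F', algebraMap F F' t ∈ w.toValuationSubring →
      (m : ℤ) ∣ c * w.ord (algebraMap F F' u))
    (v : Place K F) (ht : t ∈ v.toValuationSubring) : (m : ℤ) ∣ 6 * c * v.ord u := by
  obtain ⟨w, hw⟩ := Fermat.Agent.GB.A.Desc.PlaceExt.exists_place_restrict_eq (F' := F') v
  have htw : algebraMap F F' t ∈ w.toValuationSubring := by
    rw [← hw] at ht
    exact ht
  have h1 := hu w htw
  rw [w.ord_restrict, hw] at h1
  have he : w.ramificationIndex F ∣ 6 :=
    dvd_six_of_le_three (w.ramificationIndex_pos (F := F))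
      ((Fermat.Agent.GB.A.Desc.PlaceExt.ramificationIndex_le_finrank w).trans hd)
  obtain ⟨e', he'⟩ := he
  have h6 : (6 : ℤ) = (w.ramificationIndex F : ℤ) * (e' : ℤ) := by exact_mod_cast he'
  have e2 : 6 * c * v.ord u = (e' : ℤ) * (c * ((w.ramificationIndex F : ℤ) * v.ord u)) := by
    rw [h6]; ring
  rw [e2]
  exact Dvd.dvd.mul_left h1 _

end Down

section DownIncl

open IntermediateField

variable {k E : Type*} [Field k] [Field E] [Algebra k E] {F F' : IntermediateField k E}
  (hle : F ≤ F')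

/-- the same in the inclusion-algebra form of `IntermediateField`s. -/
theorem dvd_ord_of_inclAlgebra_loc
    (hfin : @FiniteDimensional F F' _ _ (inclAlgebra hle).toModule)
    (hsep : @Algebra.IsSeparable F F' _ _ (inclAlgebra hle))
    (hd : @Module.finrank F F' _ _ (inclAlgebra hle).toModule ≤ 3) (m : ℕ) (c : ℤ)
    (x t : F) (x' t' : F') (hxx' : (x' : E) = (x : E)) (htt' : (t' : E) = (t : E))
    (hx' : ∀ w : Place k F', t' ∈ w.toValuationSubring → (m : ℤ) ∣ c * w.ord x')
    (v : Place k F) (ht : t ∈ v.toValuationSubring) : (m : ℤ) ∣ 6 * c * v.ord x := by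
  letI := inclAlgebra hle
  have := inclAlgebra_isScalarTower hle
  have e : x' = algebraMap F F' x := Subtype.ext hxx'
  have e' : t' = algebraMap F F' t := Subtype.ext htt'
  subst e
  subst e'
  exact dvd_mul_ord_of_dvd_above_loc (K := k) hd m c x t hx' v ht

end DownIncl

/-! ### the descent of `NodeHypLoc` -/

section Modular

variable {M q : ℕ} [NeZero M] {A : ValuationSubring Kb}

local notation "𝕜" => ResidueField A

/-- `j~` at the two levels `M`, `M a` is the same Laurent series. -/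
theorem coe_jt_level (a : ℕ) [NeZero a] :
    ((Fermat.Agent.GK.QS.jt (M * a) A : FresBar (M * a) A) : LaurentSeries 𝕜) =
      ((Fermat.Agent.GK.QS.jt M A : FresBar M A) : LaurentSeries 𝕜) := by
  rw [Fermat.Agent.GK.QS.coe_jt, Fermat.Agent.GK.QS.coe_jt]

/-- **descent of the local (A4)** from level `M·2` to level `M`, at the price of a factor `6`. -/
theorem nodeHypLoc_descent_two (h : ExactDvd q M) (hq2 : q ≠ 2) (hA : A.LiesOverPrime q)
    {m : ℕ} {c : ℤ} (hN : NodeHypLoc (exactDvd_mul_two h hq2) A m c) :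
    NodeHypLoc h A m (6 * c) := by
  intro u hfix hu hloc
  have h' := exactDvd_mul_two h hq2
  have hu' : BothUnit h' A (alphaUnits M 2 u) := bothUnit_alphaUnits h h' hu
  have hfix' : ∀ σ ∈ A.inertiaSubgroupIn ℚ,
      galUnits (M * 2) σ (alphaUnits M 2 u) = alphaUnits M 2 u := by
    intro σ hσ
    rw [← alphaUnits_galUnits, hfix σ hσ]
  have hloc' : ∀ P' : Place Kb (FK (M * 2)), jF (M * 2) ∈ P'.toValuationSubring →
      (m : ℤ) ∣ P'.ord ((alphaUnits M 2 u : (FK (M * 2))ˣ) : FK (M * 2)) := by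
    intro P' hP'
    exact hloc_alphaB M 2 m (u : FK M) hloc P' hP'
  obtain ⟨h1, h2⟩ := hN (alphaUnits M 2 u) hfix' hu' hloc'
  have hle : FresBar M A ≤ FresBar (M * 2) A := FresBar_le_level M 2 A
  refine ⟨fun Q hj => ?_, fun Q hj => ?_⟩
  · exact dvd_ord_of_inclAlgebra_loc hle
      (ResDeg.finiteDimensional_FresBar_mul_two A h hA hq2 hle)
      (ResDeg.isSeparable_FresBar_mul_two A h hA hle)
      (ResDeg.finrank_FresBar_mul_two_le A h hA hq2 hle) m c _ (Fermat.Agent.GK.QS.jt M A)
      _ (Fermat.Agent.GK.QS.jt (M * 2) A) (coe_redUnit₁_alphaUnits h h' hu hu')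
      (coe_jt_level 2) (fun w hw => h1 w hw) Q hj
  · exact dvd_ord_of_inclAlgebra_loc hle
      (ResDeg.finiteDimensional_FresBar_mul_two A h hA hq2 hle)
      (ResDeg.isSeparable_FresBar_mul_two A h hA hle)
      (ResDeg.finrank_FresBar_mul_two_le A h hA hq2 hle) m c _ (Fermat.Agent.GK.QS.jt M A)
      _ (Fermat.Agent.GK.QS.jt (M * 2) A) (coe_redUnit₂_alphaUnits h h' hu hu')
      (coe_jt_level 2) (fun w hw => h2 w hw) Q hj

/-- **the local (A4) at level `M·4`** (`q ∥ M`, `q` odd), in the spelling `M * 2 * 2`. -/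
theorem nodeHypLoc_mul_four (h : ExactDvd q M) (hq2 : q ≠ 2) (hA : A.LiesOverPrime q) (m : ℕ) :
    NodeHypLoc (exactDvd_mul_two (exactDvd_mul_two h hq2) hq2) A m 1 := by
  have hqp : q.Prime := h.prime
  have : Fact q.Prime := ⟨hqp⟩
  have : NeZero q := ⟨hqp.ne_zero⟩
  have hM0 : M ≠ 0 := NeZero.ne M
  have hMq : M / q * q = M := Nat.div_mul_cancel h.dvd
  have hN0 : M / q * 4 ≠ 0 := by
    intro h0
    have : M / q = 0 := by omega
    rw [this, zero_mul] at hMq
    exact hM0 hMq.symm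
  have : NeZero (M / q * 4) := ⟨hN0⟩
  have e : M * 2 * 2 = M / q * 4 * q := by
    calc M * 2 * 2 = M / q * q * 2 * 2 := by rw [hMq]
      _ = M / q * 4 * q := by ring
  have hqN : ¬ q ∣ M / q * 4 := by
    intro hd
    have hcop : Nat.Coprime q 4 := by
      have h22 : (4 : ℕ) = 2 ^ 2 := by norm_num
      rw [h22]
      exact Nat.Coprime.pow_right 2 ((Nat.coprime_primes hqp Nat.prime_two).2 hq2)
    have hd' : q ∣ M / q := hcop.dvd_of_dvd_mul_right hd
    apply h.not_sq
    obtain ⟨c, hc⟩ := hd'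
    refine ⟨c, ?_⟩
    calc M = M / q * q := hMq.symm
      _ = q ^ 2 * c := by rw [hc]; ring
  have h' : ExactDvd q (M / q * 4 * q) := by
    rw [← e]
    exact exactDvd_mul_two (exactDvd_mul_two h hq2) hq2
  exact nodeHypLoc_congr e _ h' A m 1
    (nodeHypLoc_of_four_dvd h' hqN hA (Dvd.intro_left (M / q) rfl) hq2 m)

/-- **the LOCAL (A4) at every level, `36`-form**: `q ∥ M`, `q` odd, `A ∣ q`, ANY `m`.
For an `I_A`-fixed unit `u` of `F_M`, unit for both Gauss valuations, with `m ∣ ord_P u` at every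
place `P` of `F_M / ℚ̄` at which `j` is regular: `m ∣ 36 · ord_Q (red_i u)` at every place `Q` of
the residue function field at which `j~` is regular (`i = 1, 2`). -/
theorem nodeHypLoc36 (h : ExactDvd q M) (hq2 : q ≠ 2) (hA : A.LiesOverPrime q) (m : ℕ) :
    NodeHypLoc h A m 36 := by
  have h1 := nodeHypLoc_descent_two h hq2 hA
    (nodeHypLoc_descent_two (exactDvd_mul_two h hq2) hq2 hA (nodeHypLoc_mul_four h hq2 hA m))
  have e : (6 : ℤ) * (6 * 1) = 36 := by norm_num
  rw [e] at h1
  exact h1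

/-- the constant `1` when `m` is prime to `6`. -/
theorem nodeHypLoc_of_coprime_six (h : ExactDvd q M) (hq2 : q ≠ 2) (hA : A.LiesOverPrime q)
    {m : ℕ} (hm : Nat.Coprime m 6) : NodeHypLoc h A m 1 := by
  intro u hfix hu hloc
  obtain ⟨h1, h2⟩ := nodeHypLoc36 h hq2 hA m u hfix hu hloc
  have hcop : IsCoprime (m : ℤ) (36 : ℤ) := by
    have h36 : Nat.Coprime m 36 := by
      have : (36 : ℕ) = 6 ^ 2 := by norm_num
      rw [this]
      exact Nat.Coprime.pow_right 2 hm
    exact_mod_cast Nat.isCoprime_iff_coprime.mpr h36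
  refine ⟨fun Q hj => ?_, fun Q hj => ?_⟩
  · rw [one_mul]
    exact hcop.dvd_of_dvd_mul_left (h1 Q hj)
  · rw [one_mul]
    exact hcop.dvd_of_dvd_mul_left (h2 Q hj)

/-- **consumer form**: unfolded statement of `nodeHypLoc36`. -/
theorem dvd_thirtysix_mul_ord_red (h : ExactDvd q M) (hq2 : q ≠ 2) (hA : A.LiesOverPrime q)
    (m : ℕ) (u : (FK M)ˣ)
    (hfix : ∀ σ ∈ A.inertiaSubgroupIn ℚ, galUnits M σ u = u) (hu : BothUnit h A u)
    (hloc : ∀ P : Place Kb (FK M), jF M ∈ P.toValuationSubring → (m : ℤ) ∣ P.ord (u : FK M))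
    (Q : Place 𝕜 (FresBar M A)) (hj : Fermat.Agent.GK.QS.jt M A ∈ Q.toValuationSubring) :
    (m : ℤ) ∣ 36 * Q.ord ((redUnit₁ hu : (FresBar M A)ˣ) : FresBar M A) ∧
      (m : ℤ) ∣ 36 * Q.ord ((redUnit₂ hu : (FresBar M A)ˣ) : FresBar M A) := by
  obtain ⟨h1, h2⟩ := nodeHypLoc36 h hq2 hA m u hfix hu hloc
  exact ⟨h1 Q hj, h2 Q hj⟩

end Modular

end Fermat.Agent.GZ.LocP.A4Loc

end
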