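/-
GATE-Z / LOC-p, building block A4LOC of (b)=BOB (helper38), file 1: **the LOCAL Kummer condition at
the horizontal places over the unramified base**.

Twin of `GL/Frame/HorizDiv.exists_eq_zpow_mul_unit_of_mem_pDivUnits` and
`GL/Frame/HorizHord.hord_horizontal` (helper11) in which the GLOBAL hypothesis
`mapK0Bar u₀ ∈ pDivUnits ℚ̄ F_N m` is replaced by the divisibility `m ∣ ord_P (mapK0Bar u₀)` at the
places `P` of `F_N / ℚ̄` lying over the given discrete valuation ring `V` only — this is all the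
original proofs use.  Needed for units like `u₀^{ν₀} · η^{-j}` whose divisor is `m`-divisible only
away from the cusps.
-/
import Fermat.Agent.GL.Frame.HorizHord

set_option autoImplicit false

noncomputable section

namespace Fermat.Agent.GZ.LocP.A4Loc

open HahnSeries ModularCurve IsLocalRing AlgebraicCurve
open Fermat.Agent.S24 Fermat.Agent.S24_helper62
open Fermat.Agent.GK.AL Fermat.Agent.GK.Val.GaussBase
open Fermat.Agent.GL.Val.GaussK0 Fermat.Agent.GL.Val.SecondK0
open Fermat.Agent.GJ.KumGroup Fermat.Agent.GJ.FF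
open Fermat.Agent.GL.Frame.ConstUnram Fermat.Agent.GL.Frame.HorizDiv
open Fermat.Agent.GL.KrullHeightOne Fermat.Agent.GL.Frame.HeightOne Fermat.Agent.GL.Frame.Kummer
open Fermat.Agent.GL.Frame.HorizHord
open Fermat.Agent.GL.Local.InertiaField
open Fermat.Agent.Common_helper32

variable (A : ValuationSubring Qb) (N : ℕ) [NeZero N]

section Kummer

variable (m : ℕ) (u₀ : (modularFunctionFieldFullC (K0 A) N)ˣ)
  (V : ValuationSubring (modularFunctionFieldFullC (K0 A) N))
  (hKV : ∀ c : K0 A, algebraMap (K0 A) (modularFunctionFieldFullC (K0 A) N) c ∈ V)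
  (hu : ∀ P : Place Kb (FK N),
    (∀ f : modularFunctionFieldFullC (K0 A) N, mapK0Bar A N f ∈ P.toValuationSubring ↔ f ∈ V) →
      (m : ℤ) ∣ P.ord (mapK0Bar A N (u₀ : modularFunctionFieldFullC (K0 A) N)))

include hu hKV in
/-- **HORIZ-DIV, local form**: a `K₀`-rational unit whose order is divisible by `m` at the places of
`F_N / ℚ̄` over the discrete valuation ring `V ⊇ K₀` has `V`-order divisible by `m`. -/
theorem exists_eq_zpow_mul_unit_loc [IsNoetherianRing V] (t : V) (ht0 : t ≠ 0)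
    (ht : maximalIdeal V = Ideal.span {t}) :
    ∃ n : ℤ, ∃ ε : Vˣ, ((u₀ : modularFunctionFieldFullC (K0 A) N)) =
      (t : modularFunctionFieldFullC (K0 A) N) ^ ((m : ℤ) * n) *
        ((ε : V) : modularFunctionFieldFullC (K0 A) N) := by
  obtain ⟨P, hVP, hP1, hPall⟩ := exists_place_over A N V hKV t ht0 ht
  set ι := mapK0Bar A N with hι
  have hu0 : ι (u₀ : modularFunctionFieldFullC (K0 A) N) ≠ 0 :=
    (map_ne_zero ι).mpr u₀.ne_zero
  obtain ⟨n, hn⟩ : (m : ℤ) ∣ P.ord (ι (u₀ : modularFunctionFieldFullC (K0 A) N)) := hu P hVP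
  obtain ⟨ε, hε⟩ := hPall _ hu0
  rw [hn] at hε
  have htF : (t : modularFunctionFieldFullC (K0 A) N) ≠ 0 := fun h => ht0 (Subtype.ext h)
  set e : modularFunctionFieldFullC (K0 A) N :=
    (u₀ : modularFunctionFieldFullC (K0 A) N) /
      (t : modularFunctionFieldFullC (K0 A) N) ^ ((m : ℤ) * n) with he
  have hιt : ι (t : modularFunctionFieldFullC (K0 A) N) ≠ 0 := (map_ne_zero ι).mpr htF
  have hιe : ι e = ((ε : P.toValuationSubring) : FK N) := by
    rw [he, map_div₀, map_zpow₀, hε]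
    field_simp
  have heV : e ∈ V := (hVP e).1 (by rw [hιe]; exact (ε : P.toValuationSubring).2)
  have heiV : e⁻¹ ∈ V := by
    refine (hVP e⁻¹).1 ?_
    rw [map_inv₀, hιe]
    have h1 : ((ε : P.toValuationSubring) : FK N) *
        (((ε⁻¹ : P.toValuationSubringˣ) : P.toValuationSubring) : FK N) = 1 :=
      congrArg Subtype.val ε.mul_inv
    rw [← eq_inv_of_mul_eq_one_right h1]
    exact ((ε⁻¹ : P.toValuationSubringˣ) : P.toValuationSubring).2
  have he0 : e ≠ 0 := by
    rw [he]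
    exact div_ne_zero u₀.ne_zero (zpow_ne_zero _ htF)
  refine ⟨n, ⟨⟨e, heV⟩, ⟨e⁻¹, heiV⟩, Subtype.ext (mul_inv_cancel₀ he0),
    Subtype.ext (inv_mul_cancel₀ he0)⟩, ?_⟩
  show (u₀ : modularFunctionFieldFullC (K0 A) N) = _ * e
  rw [he]
  field_simp

include hu hKV in
/-- the same for a discrete valuation ring and an irreducible element -/
theorem exists_eq_zpow_mul_unit_loc_dvr [IsDiscreteValuationRing V] (t : V)
    (ht : Irreducible t) :
    ∃ n : ℤ, ∃ ε : Vˣ, ((u₀ : modularFunctionFieldFullC (K0 A) N)) =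
      (t : modularFunctionFieldFullC (K0 A) N) ^ ((m : ℤ) * n) *
        ((ε : V) : modularFunctionFieldFullC (K0 A) N) :=
  exists_eq_zpow_mul_unit_loc A N m u₀ V hKV hu t ht.ne_zero
    ((IsDiscreteValuationRing.irreducible_iff_uniformizer t).mp ht)

end Kummer

section Hord

variable {B : Type*} [CommRing B] [IsDomain B] [Algebra B (modularFunctionFieldFullC (K0 A) N)]
  [IsFractionRing B (modularFunctionFieldFullC (K0 A) N)] [IsNoetherianRing B]
  [IsIntegrallyClosed B]

/-- **the `hord` binder at a horizontal height-one prime, local form**: if `m ∣ ord_P (mapK0Bar u₀)`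
at the places `P` over `B_𝔭 ⊇ K₀`, then `u₀` is a unit of `B_𝔭` times an `m`-th power. -/
theorem hord_horizontal_loc (m : ℕ) (u₀ : (modularFunctionFieldFullC (K0 A) N)ˣ)
    (𝔭 : HtOne B)
    (hu : ∀ P : Place Kb (FK N),
      (∀ f : modularFunctionFieldFullC (K0 A) N, mapK0Bar A N f ∈ P.toValuationSubring ↔
        f ∈ V1 (modularFunctionFieldFullC (K0 A) N) 𝔭) →
        (m : ℤ) ∣ P.ord (mapK0Bar A N (u₀ : modularFunctionFieldFullC (K0 A) N)))
    (hK0 : ∀ c : K0 A, algebraMap (K0 A) (modularFunctionFieldFullC (K0 A) N) c ∈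
      V1 (modularFunctionFieldFullC (K0 A) N) 𝔭) :
    ∃ z : modularFunctionFieldFullC (K0 A) N, z ≠ 0 ∧
      UnitAt 𝔭 ((u₀ : modularFunctionFieldFullC (K0 A) N) * z ^ m) := by
  have hdvr := isDiscreteValuationRing_V1 (F := modularFunctionFieldFullC (K0 A) N) 𝔭
  obtain ⟨t, ht⟩ := IsDiscreteValuationRing.exists_irreducible
    ↥(V1 (modularFunctionFieldFullC (K0 A) N) 𝔭)
  obtain ⟨n, ε, h⟩ := exists_eq_zpow_mul_unit_loc_dvr A N m u₀
    (V1 (modularFunctionFieldFullC (K0 A) N) 𝔭) hK0 hu t ht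
  have htF : (t : modularFunctionFieldFullC (K0 A) N) ≠ 0 :=
    fun h0 => ht.ne_zero (Subtype.ext h0)
  refine ⟨(t : modularFunctionFieldFullC (K0 A) N) ^ (-n), zpow_ne_zero _ htF, ?_⟩
  have h1 : (u₀ : modularFunctionFieldFullC (K0 A) N) *
      ((t : modularFunctionFieldFullC (K0 A) N) ^ (-n)) ^ m =
      ((ε : V1 (modularFunctionFieldFullC (K0 A) N) 𝔭) : modularFunctionFieldFullC (K0 A) N) := by
    rw [h, ← zpow_natCast, ← zpow_mul, mul_comm (-n) (m : ℤ), mul_right_comm, ← zpow_add₀ htF]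
    simp
  rw [h1]
  refine ⟨(ε : V1 (modularFunctionFieldFullC (K0 A) N) 𝔭).2, ?_⟩
  have h2 : ((ε : V1 (modularFunctionFieldFullC (K0 A) N) 𝔭) :
      modularFunctionFieldFullC (K0 A) N) *
      (((ε⁻¹ : (V1 (modularFunctionFieldFullC (K0 A) N) 𝔭)ˣ) :
        V1 (modularFunctionFieldFullC (K0 A) N) 𝔭) : modularFunctionFieldFullC (K0 A) N) = 1 :=
    congrArg Subtype.val ε.mul_inv
  rw [← eq_inv_of_mul_eq_one_right h2]
  exact ((ε⁻¹ : (V1 (modularFunctionFieldFullC (K0 A) N) 𝔭)ˣ) :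
    V1 (modularFunctionFieldFullC (K0 A) N) 𝔭).2

end Hord

end Fermat.Agent.GZ.LocP.A4Loc

end
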